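import Fermat.Agent.Attach.Interface
import Fermat.Agent.Attach.EigenCharacter
import Fermat.Agent.SS2.CoeffRing
import Fermat.Agent.EllFrob.Reduction

/-!
`r`-adic points of an eigensystem, the descent from congruences at infinitely many primes to an
equality, and the Hasse bound for the trace of an integral model.
-/

set_option autoImplicit false
set_option linter.all false

noncomputable section

namespace FLTAgent.S58

open IsLocalRing FLTAgent.Attach

variable {M : ℕ} [NeZero M] (χ : TFull M →+* ℂ)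

theorem exists_int_multiple {t : TFull M} (h : χ t ≠ 0) :
    ∃ c : ℤ, c ≠ 0 ∧ ∃ w : TFull M, χ (t * w - (c : TFull M)) = 0 := by
  haveI := finite_TFull M
  haveI : Module.Finite ℤ χ.range :=
    Module.Finite.of_surjective χ.rangeRestrict.toIntAlgHom.toLinearMap χ.rangeRestrict_surjective
  haveI : Algebra.IsIntegral ℤ χ.range := Algebra.IsIntegral.of_finite ℤ _
  set y := χ.rangeRestrict t with hy
  have hy0 : y ≠ 0 := fun e => h (congrArg Subtype.val e)
  have hint : IsIntegral ℤ y := Algebra.IsIntegral.isIntegral y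
  refine ⟨(minpoly ℤ y).coeff 0, fun h0 => ?_, ?_⟩
  · have e := Polynomial.X_mul_divX_add (minpoly ℤ y)
    rw [h0, map_zero, add_zero] at e
    have hm : (minpoly ℤ y).divX.Monic :=
      Polynomial.monic_X.of_mul_monic_left (by rw [e]; exact minpoly.monic hint)
    have h1 := minpoly.aeval ℤ y
    rw [← e, map_mul, Polynomial.aeval_X, mul_eq_zero] at h1
    have hle := minpoly.min ℤ y hm (h1.resolve_left hy0)
    nth_rw 1 [← e] at hle
    rw [mul_comm, Polynomial.degree_mul_X, Polynomial.degree_eq_natDegree hm.ne_zero] at hle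
    norm_cast at hle
    omega
  obtain ⟨w, hw⟩ := χ.rangeRestrict_surjective (-(Polynomial.aeval y (minpoly ℤ y).divX))
  refine ⟨w, ?_⟩
  have e := minpoly.aeval ℤ y
  rw [← Polynomial.X_mul_divX_add (minpoly ℤ y)] at e
  simp only [map_add, map_mul, Polynomial.aeval_X, Polynomial.aeval_C, algebraMap_int_eq,
    eq_intCast, map_intCast] at e
  have h1 : χ.rangeRestrict (t * w - (((minpoly ℤ y).coeff 0 : ℤ) : TFull M)) = 0 := by
    rw [map_sub, map_mul, map_intCast, hw, ← hy]
    linear_combination -e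
  exact congrArg Subtype.val h1

theorem exists_point {r : ℕ} (hr : r.Prime) :
    ∃ (O : Type) (_ : CommRing O) (_ : IsDomain O) (_ : IsDiscreteValuationRing O)
      (_ : IsAdicComplete (maximalIdeal O) O) (_ : Finite (ResidueField O)) (_ : CharZero O),
      (r : O) ∈ maximalIdeal O ∧ ∃ f : TFull M →+* O, ∀ t, f t = 0 ↔ χ t = 0 := by
  haveI : Fact r.Prime := ⟨hr⟩
  haveI := finite_TFull M
  haveI : Module.Finite ℤ χ.range :=
    Module.Finite.of_surjective χ.rangeRestrict.toIntAlgHom.toLinearMap χ.rangeRestrict_surjective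
  haveI : Algebra.IsIntegral ℤ χ.range := Algebra.IsIntegral.of_finite ℤ _
  haveI : Finite (ResidueField ℤ_[r]) := Finite.of_equiv _ PadicInt.residueField.toEquiv.symm
  obtain ⟨g, -⟩ := exists_extension (Int.castRingHom χ.range) (Int.cast_injective)
    (Int.castRingHom (AlgebraicClosure (FractionRing ℤ_[r])))
  have hg : Function.Injective g := by
    rw [RingHom.injective_iff_ker_eq_bot]
    haveI := RingHom.ker_isPrime g
    refine Ideal.eq_bot_of_comap_eq_bot (R := ℤ) ?_
    rw [eq_bot_iff]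
    intro z hz
    rw [Ideal.mem_comap, RingHom.mem_ker, eq_intCast, map_intCast] at hz
    exact Int.cast_eq_zero.mp hz
  obtain ⟨O, iC, iD, iV, iA, iF, iZ, iAlg, iFin, iLoc, -, f, -, hf⟩ :=
    SS2.exists_coeffRing ℤ_[r] g
  refine ⟨O, iC, iD, iV, iA, iF, iZ, ?_, f.comp χ.rangeRestrict, fun t => ⟨fun h => ?_, fun h => ?_⟩⟩
  · rw [← map_natCast (algebraMap ℤ_[r] O)]
    exact map_nonunit (algebraMap ℤ_[r] O) _
      (by rw [PadicInt.maximalIdeal_eq_span_p]; exact Ideal.mem_span_singleton_self _)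
  · exact congrArg Subtype.val (hg ((hf _ h).trans g.map_zero.symm))
  · rw [RingHom.comp_apply, show χ.rangeRestrict t = 0 from Subtype.ext h, map_zero]

theorem dvd_of_mem {O : Type} [CommRing O] [IsLocalRing O] {r : ℕ} (hr : r.Prime)
    (hrO : (r : O) ∈ maximalIdeal O) {z : ℤ} (hz : (z : O) ∈ maximalIdeal O) : (r : ℤ) ∣ z := by
  by_contra hn
  obtain ⟨x, y, hxy⟩ := ((Nat.prime_iff_prime_int.mp hr).coprime_iff_not_dvd).2 hn
  apply (maximalIdeal.isMaximal O).ne_top
  rw [Ideal.eq_top_iff_one]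
  have e := congrArg (fun u : ℤ => (u : O)) hxy
  push_cast at e
  rw [← e]
  exact add_mem (Ideal.mul_mem_left _ _ hrO) (Ideal.mul_mem_left _ _ hz)

/-- congruences at infinitely many primes give an equality -/
theorem eq_zero_of_congr {t : TFull M} (B : ℕ)
    (h : ∀ r : ℕ, r.Prime → B < r → ∀ (O : Type) [CommRing O] [IsDomain O]
      [IsDiscreteValuationRing O] [IsAdicComplete (maximalIdeal O) O] [Finite (ResidueField O)]
      [CharZero O], (r : O) ∈ maximalIdeal O → ∀ f : TFull M →+* O, (∀ u, f u = 0 ↔ χ u = 0) →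
        f t ∈ maximalIdeal O) : χ t = 0 := by
  by_contra ht
  obtain ⟨c, hc, w, hw⟩ := exists_int_multiple χ ht
  obtain ⟨r, hrB, hr⟩ := Nat.exists_infinite_primes (B + c.natAbs + 1)
  obtain ⟨O, iC, iD, iV, iA, iF, iZ, hrO, f, hf⟩ := exists_point χ hr
  have hmem := h r hr (by omega) O hrO f hf
  have e : f t * f w = (c : O) := by
    rw [← map_mul, ← sub_eq_zero, ← map_intCast f, ← map_sub]
    exact (hf _).2 hw
  have hdvd := dvd_of_mem hr hrO (e ▸ Ideal.mul_mem_right (f w) _ hmem)
  exact hc (Int.eq_zero_of_dvd_of_natAbs_lt_natAbs hdvd (by rw [Int.natAbs_natCast]; omega))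

open WeierstrassCurve in
/-- Hasse's bound for the trace of the model at a good prime -/
theorem sq_apOfModel_le {W : WeierstrassCurve ℤ} {q : ℕ} (hq : q.Prime)
    (hgood : ¬ (q : ℤ) ∣ W.Δ) : W.apOfModel q ^ 2 ≤ 4 * (q : ℤ) := by
  classical
  haveI : Fact q.Prime := ⟨hq⟩
  haveI : (W.reductionMod q).IsElliptic := by
    constructor
    rw [reductionMod, WeierstrassCurve.map_Δ, isUnit_iff_ne_zero, Int.coe_castRingHom, Ne,
      ZMod.intCast_zmod_eq_zero_iff_dvd]
    exact hgood
  rw [show W.apOfModel q = EllFrob.frobTrace (W.reductionMod q) by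
    rw [apOfModel, traceOfFrobenius, EllFrob.frobTrace, Nat.card_eq_fintype_card]]
  have h := EllFrob.hasse_bound (W.reductionMod q)
  rwa [ZMod.card] at h

end FLTAgent.S58

end
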