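import Fermat.Agent.S58.Semistable
import Fermat.Agent.EllFrob.DetCyc
import Fermat.Agent.SS2.Transfer
import Fermat.Agent.SS.Unipotent

/-!
A representation with the Frobenius polynomials of an elliptic curve gives, for every element, a
quadratic relation on the torsion of the curve.
-/

set_option autoImplicit false
set_option linter.all false

noncomputable section

namespace FLTAgent.S58

open IsLocalRing Polynomial WeierstrassCurve FLTAgent.Local FLTAgent.Torsion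
open FLTAgent.Attach (cyc powerTrace)
open scoped WeierstrassCurve.Affine
open WeierstrassCurve.Affine.Point (galoisRepModuleEnd galoisRepModuleEnd_apply)

local notation "Ω" => AlgebraicClosure ℚ
local notation "GalQ" => AlgebraicClosure ℚ ≃ₐ[ℚ] AlgebraicClosure ℚ

variable {W : WeierstrassCurve ℤ} {O : Type} [CommRing O] [IsDomain O] [IsLocalRing O]
  [IsAdicComplete (maximalIdeal O) O]

/-- the representation has the Frobenius polynomials of `W` outside `S` -/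
def FrobMatches (W : WeierstrassCurve ℤ) (ρ : GaloisRepAdic O) (S : Finset ℕ) : Prop :=
  ∀ ℓ : ℕ, ℓ.Prime → ℓ ∉ S → ¬ (ℓ : ℤ) ∣ W.Δ → ∀ A : ValuationSubring Ω, A.LiesOverPrime ℓ →
    ∀ τ : GalQ, A.IsFrobeniusAt τ ℓ →
      LinearMap.charpoly (ρ.ρ τ) = X ^ 2 - C ((W.apOfModel ℓ : ℤ) : O) * X + C (ℓ : O)

theorem exists_relation (hΔ : W.Δ ≠ 0) {r : ℕ} (hr : r.Prime) (hrO : (r : O) ∈ maximalIdeal O)
    {ρ : GaloisRepAdic O} {S : Finset ℕ} (hρ : FrobMatches W ρ S) (σ : GalQ) (m : ℕ)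
    [NeZero (r ^ m)] :
    ∃ a d : ℤ, (∀ P : QPoint W, r ^ m • P = 0 → σ • (σ • P) - a • (σ • P) + d • P = 0) ∧
      (d : ZMod (r ^ m)) = cyc (r ^ m) σ ∧
      LinearMap.trace O ρ.V (ρ.ρ σ) - (a : O) ∈ maximalIdeal O ^ m ∧
      LinearMap.det (ρ.ρ σ) - (d : O) ∈ maximalIdeal O ^ m := by
  classical
  obtain ⟨L1, hL1, h1⟩ := EllFrob.exists_torsion_field hΔ (r ^ m) (NeZero.ne _)
  obtain ⟨L2, hL2, h2⟩ := Attach.exists_cyc_level (r ^ m)
  obtain ⟨L3, hL3, h3⟩ := ρ.isAdicContinuous m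
  haveI := hL1; haveI := hL2; haveI := hL3
  obtain ⟨ℓ, A, τ, k, hℓ, hℓS, hA, hτ, hagree⟩ :=
    FLTAgent.Chebotarev.exists_frobenius_pow (L1 ⊔ L2 ⊔ L3) σ
      (insert r (S ∪ W.Δ.natAbs.primeFactors))
  simp only [Finset.mem_insert, Finset.mem_union, Nat.mem_primeFactors, not_or] at hℓS
  obtain ⟨hℓr, hℓS, hℓΔ⟩ := hℓS
  have hgood : ¬ (ℓ : ℤ) ∣ W.Δ := fun h => hℓΔ ⟨hℓ, Int.natCast_dvd.1 h, by simpa using hΔ⟩
  have hℓn : ¬ ℓ ∣ r ^ m := fun h => hℓr ((Nat.prime_dvd_prime_iff_eq hℓ hr).1 (hℓ.dvd_of_dvd_pow h))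
  set g : GalQ := σ⁻¹ * τ ^ k with hg
  have hτk : τ ^ k = σ * g := by rw [hg, mul_inv_cancel_left]
  have hfix : ∀ y ∈ L1 ⊔ L2 ⊔ L3, g y = y := fun y hy => by
    rw [hg, AlgEquiv.mul_apply, hagree y hy]
    exact σ.symm_apply_apply y
  refine ⟨powerTrace (W.apOfModel ℓ) (ℓ : ℤ) k, (ℓ : ℤ) ^ k, fun P hP => ?_, ?_, ?_, ?_⟩
  · set F := galoisRepModuleEnd ℚ (K := Ω) (W.map (Int.castRingHom ℚ)) (r ^ m)
    have hrel : F τ * F τ - W.apOfModel ℓ • F τ + (ℓ : ℤ) • 1 = 0 := by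
      refine LinearMap.ext fun x => Subtype.ext ?_
      simp only [LinearMap.add_apply, LinearMap.sub_apply, LinearMap.smul_apply,
        Module.End.mul_apply, Module.End.one_apply, LinearMap.zero_apply, Submodule.coe_add,
        Submodule.coe_sub, Submodule.coe_smul_of_tower, ZeroMemClass.coe_zero, F,
        galoisRepModuleEnd_apply, coe_smul]
      exact EllFrob.torsion_relation hℓ hgood hA hτ hℓn _ (nsmul_tors x)
    have hk := SS2.quadratic_pow hrel k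
    rw [← map_pow] at hk
    have hx := congrArg (fun x : Tors W (r ^ m) => (x : QPoint W))
      (LinearMap.congr_fun hk (mkTors P hP))
    have hσ : ∀ x : Tors W (r ^ m), τ ^ k • x = σ • x := fun x => h1 _ _ (fun z hz =>
      hagree z (le_sup_left (a := L1 ⊔ L2) (le_sup_left (a := L1) hz))) x
    simp only [LinearMap.add_apply, LinearMap.sub_apply, LinearMap.smul_apply,
      Module.End.mul_apply, Module.End.one_apply, LinearMap.zero_apply, Submodule.coe_add,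
      Submodule.coe_sub, Submodule.coe_smul_of_tower, ZeroMemClass.coe_zero, F,
      galoisRepModuleEnd_apply, hσ, coe_smul] at hx
    exact hx
  · have e : cyc (r ^ m) (τ ^ k) = cyc (r ^ m) σ := by
      rw [hτk, Attach.cyc_mul, h2 g fun y hy =>
        hfix y (le_sup_left (a := L1 ⊔ L2) (le_sup_right (a := L1) hy)), mul_one]
    rw [← e, EllFrob.cyc_pow, Attach.cyc_frobenius hℓ hℓn hA hτ]
    push_cast
    rfl
  all_goals
    have hch := hρ ℓ hℓ hℓS hgood A hA τ hτ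
    have hclose : ∀ v, (ρ.ρ σ - ρ.ρ (τ ^ k)) v ∈ maximalIdeal O ^ m • (⊤ : Submodule O ρ.V) := by
      intro v
      have h4 := h3 g (fun y hy => hfix y (le_sup_right (a := L1 ⊔ L2) hy)) v
      have h5 : (ρ.ρ σ - ρ.ρ (τ ^ k)) v = -(ρ.ρ σ (ρ.ρ g v - v)) := by
        rw [map_sub, ← Module.End.mul_apply, ← map_mul, ← hτk, neg_sub, LinearMap.sub_apply]
      rw [h5]
      refine neg_mem ?_
      refine Submodule.smul_induction_on h4 ?_ ?_
      · intro a ha w _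
        rw [map_smul]
        exact Submodule.smul_mem_smul ha trivial
      · intro x y hx hy
        rw [map_add]
        exact add_mem hx hy
  · have htr := Attach.trace_pow_eq ρ.finrank_eq hch k
    rw [← eq_intCast (Int.castRingHom O), Attach.map_powerTrace, map_natCast, eq_intCast, ← htr,
      ← map_pow, ← map_sub]
    exact Attach.trace_mem_of_forall_mem _ _ hclose
  · have hd : LinearMap.det (ρ.ρ (τ ^ k)) = (((ℓ : ℤ) ^ k : ℤ) : O) := by
      rw [map_pow, map_pow, SS.det_of_charpoly ρ.finrank_eq hch]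
      push_cast
      rfl
    rw [← hd]
    exact SS.det_sub_mem (Module.finBasisOfFinrankEq O ρ.V ρ.finrank_eq) _ _ _ hclose

theorem dvd_of_forall_zsmul (hΔ : W.Δ ≠ 0) {n : ℕ} (hn : n ≠ 0) {c : ℤ}
    (h : ∀ P : QPoint W, n • P = 0 → c • P = 0) : (n : ℤ) ∣ c := by
  set g := Int.gcd c n with hg
  have hgn : g ∣ n := Int.natCast_dvd_natCast.1 (Int.gcd_dvd_right c n)
  have hg0 : g ≠ 0 := fun e => hn (Nat.eq_zero_of_zero_dvd (e ▸ hgn))
  have hsub : ∀ P : QPoint W, n • P = 0 → g • P = 0 := fun P hP => by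
    rw [← natCast_zsmul, hg, Int.gcd_eq_gcd_ab, add_zsmul, mul_comm c, mul_comm (n : ℤ), mul_zsmul,
      mul_zsmul, h P hP, natCast_zsmul, hP, zsmul_zero, zsmul_zero, add_zero]
  haveI : Finite {P : QPoint W // g • P = 0} :=
    Nat.finite_of_card_ne_zero (by rw [EllFrob.natCard_torsion hΔ g hg0]; exact pow_ne_zero 2 hg0)
  have hle := Nat.card_le_card_of_injective
    (fun P : {P : QPoint W // n • P = 0} => (⟨P.1, hsub _ P.2⟩ : {P : QPoint W // g • P = 0}))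
    (fun a b hab => Subtype.ext (congrArg (fun z : {P : QPoint W // g • P = 0} => z.1) hab))
  rw [EllFrob.natCard_torsion hΔ n hn, EllFrob.natCard_torsion hΔ g hg0] at hle
  have hge : n ≤ g := (Nat.pow_le_pow_iff_left two_ne_zero).1 hle
  have : g = n := le_antisymm (Nat.le_of_dvd (Nat.pos_of_ne_zero hn) hgn) hge
  rw [← this]
  exact Int.gcd_dvd_left c n

theorem zsmul_eq_of_cast_eq {n : ℕ} {P : QPoint W} (hP : n • P = 0) {c d : ℤ}
    (h : (c : ZMod n) = d) : c • P = d • P := by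
  rw [ZMod.intCast_eq_intCast_iff_dvd_sub] at h
  obtain ⟨e, he⟩ := h
  rw [show d = e * n + c by linear_combination he, add_zsmul, mul_zsmul, natCast_zsmul, hP,
    zsmul_zero, zero_add]

theorem int_mem_of_dvd {r m : ℕ} (hrO : (r : O) ∈ maximalIdeal O) {z : ℤ}
    (h : ((r ^ m : ℕ) : ℤ) ∣ z) : (z : O) ∈ maximalIdeal O ^ m :=
  Attach.intCast_mem_pow hrO h

/-- at a good prime the trace is congruent to `a_q` -/
theorem trace_sub_mem_good (hΔ : W.Δ ≠ 0) {r : ℕ} (hr : r.Prime)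
    (hrO : (r : O) ∈ maximalIdeal O) {ρ : GaloisRepAdic O} {S : Finset ℕ}
    (hρ : FrobMatches W ρ S) {q : ℕ} (hq : q.Prime) (hgood : ¬ (q : ℤ) ∣ W.Δ) (hqr : q ≠ r)
    {A : ValuationSubring Ω} (hA : A.LiesOverPrime q) {σ : GalQ} (hσ : A.IsFrobeniusAt σ q) :
    LinearMap.trace O ρ.V (ρ.ρ σ) - ((W.apOfModel q : ℤ) : O) ∈ maximalIdeal O := by
  haveI : NeZero (r ^ 1) := ⟨by rw [pow_one]; exact hr.ne_zero⟩
  have hqn : ¬ q ∣ r ^ 1 := by
    rw [pow_one]; exact fun h => hqr ((Nat.prime_dvd_prime_iff_eq hq hr).1 h)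
  obtain ⟨a, d, hrel, hd, ht, -⟩ := exists_relation hΔ hr hrO hρ σ 1
  rw [Attach.cyc_frobenius hq hqn hA hσ] at hd
  have hdvd : ((r ^ 1 : ℕ) : ℤ) ∣ a - W.apOfModel q := by
    refine dvd_of_forall_zsmul hΔ (NeZero.ne _) fun P hP => ?_
    obtain ⟨Q, rfl⟩ : ∃ Q, σ • Q = P := ⟨σ⁻¹ • P, smul_inv_smul σ P⟩
    have hQ : r ^ 1 • Q = 0 := by
      have := smul_torsion (σ := σ⁻¹) hP
      rwa [inv_smul_smul] at this
    have e1 := hrel Q hQ
    have e2 := EllFrob.torsion_relation hq hgood hA hσ hqn Q hQ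
    rw [zsmul_eq_of_cast_eq hQ (show ((d : ℤ) : ZMod (r ^ 1)) = ((q : ℤ) : ZMod (r ^ 1)) by
      rw [hd, Int.cast_natCast])] at e1
    rw [sub_zsmul, ← sub_eq_add_neg]
    linear_combination (norm := abel) e2 - e1
  have h := add_mem ht (int_mem_of_dvd (O := O) hrO hdvd)
  rw [pow_one] at h
  push_cast at h
  convert h using 1
  ring

/-- at a prime of multiplicative reduction the trace is congruent to `±(q + 1)` -/
theorem trace_prod_mem_bad (hΔ : W.Δ ≠ 0) {r : ℕ} (hr : r.Prime) (hr2 : r ≠ 2)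
    (hrO : (r : O) ∈ maximalIdeal O) {ρ : GaloisRepAdic O} {S : Finset ℕ}
    (hρ : FrobMatches W ρ S) {q : ℕ} (hq : q.Prime) (hd : (q : ℤ) ∣ W.Δ) (hss : SemistableAt W q)
    (hqr : q ≠ r) {A : ValuationSubring Ω} (hA : A.LiesOverPrime q) {σ : GalQ}
    (hσ : A.IsFrobeniusAt σ q) :
    (LinearMap.trace O ρ.V (ρ.ρ σ) - ((q : O) + 1)) * (LinearMap.trace O ρ.V (ρ.ρ σ) + ((q : O) + 1))
      ∈ maximalIdeal O := by
  haveI : NeZero (r ^ 1) := ⟨by rw [pow_one]; exact hr.ne_zero⟩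
  have hqn : ¬ q ∣ r ^ 1 := by
    rw [pow_one]; exact fun h => hqr ((Nat.prime_dvd_prime_iff_eq hq hr).1 h)
  obtain ⟨a, d, hrel, hd', ht, -⟩ := exists_relation hΔ hr hrO hρ σ 1
  rw [Attach.cyc_frobenius hq hqn hA hσ] at hd'
  obtain ⟨P, hP, hPE⟩ := exists_torsion_not_mem_zeroComp hA hq hd hss hΔ (r := r)
    (hr.odd_of_ne_two hr2) (by have := hr.two_le; omega)
    (fun h => hqr ((Nat.prime_dvd_prime_iff_eq hq hr).1 h))
  have hP1 : r ^ 1 • P = 0 := by rw [pow_one]; exact hP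
  have e := hrel P hP1
  rw [zsmul_eq_of_cast_eq hP1 (show ((d : ℤ) : ZMod (r ^ 1)) = ((q : ℤ) : ZMod (r ^ 1)) by
    rw [hd', Int.cast_natCast])] at e
  have hdec := hσ.mem_decompositionSubgroup
  have hmem : ∀ c : ℤ, c • P ∈ zeroComp W A → (r : ℤ) ∣ c := by
    intro c hc
    by_contra hn
    obtain ⟨x, y, hxy⟩ := ((Nat.prime_iff_prime_int.mp hr).coprime_iff_not_dvd).2 hn
    apply hPE
    have e' : P = y • (c • P) := by
      conv_lhs => rw [← one_zsmul P, ← hxy, add_zsmul, mul_zsmul, natCast_zsmul, hP, zsmul_zero,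
        zero_add, mul_zsmul]
    rw [e']
    exact zsmul_mem hc y
  obtain ⟨ε, hε, hεP⟩ : ∃ ε : ℤ, (ε = 1 ∨ ε = -1) ∧ σ • P - ε • P ∈ zeroComp W A := by
    rcases image_add_or_sub hA hq hd hss hdec (hr.odd_of_ne_two hr2) hP with h | h
    · exact ⟨-1, Or.inr rfl, by rwa [neg_one_zsmul, sub_neg_eq_add]⟩
    · exact ⟨1, Or.inl rfl, by rwa [one_zsmul]⟩
  have h2 := smul_mem_zeroComp hA hq hd hss hdec hεP
  rw [galois_sub, EllFrob.galois_zsmul] at h2
  have hkey : (r : ℤ) ∣ 1 - ε * a + q := by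
    refine hmem _ ?_
    have h3 : (σ • (σ • P) - ε • (σ • P)) + (ε - a) • (σ • P - ε • P) ∈ zeroComp W A :=
      add_mem h2 (zsmul_mem hεP _)
    have hsq : ε * ε = 1 := by rcases hε with rfl | rfl <;> norm_num
    have h4 : (σ • (σ • P) - ε • (σ • P)) + (ε - a) • (σ • P - ε • P) =
        -((1 - ε * a + q) • P) := by
      rw [zsmul_sub, sub_zsmul, sub_zsmul, add_zsmul, sub_zsmul, one_zsmul, ← mul_zsmul, ← mul_zsmul,
        hsq, one_zsmul, mul_comm a ε]
      linear_combination (norm := abel) e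
    rw [h4] at h3
    exact neg_mem_iff.1 h3
  have hprod : ((r ^ 1 : ℕ) : ℤ) ∣ (a - ((q : ℤ) + 1)) * (a + ((q : ℤ) + 1)) := by
    rw [pow_one]
    rcases hε with rfl | rfl
    · exact dvd_mul_of_dvd_left (by
        rw [show a - ((q : ℤ) + 1) = -(1 - 1 * a + q) by ring]; exact dvd_neg.2 hkey) _
    · exact dvd_mul_of_dvd_right (by
        rw [show a + ((q : ℤ) + 1) = 1 - -1 * a + q by ring]; exact hkey) _
  have h := int_mem_of_dvd (O := O) hrO hprod
  rw [pow_one] at h ht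
  push_cast at h
  have := add_mem h (Ideal.mul_mem_right (LinearMap.trace O ρ.V (ρ.ρ σ) + (a : O)) _ ht)
  convert this using 1
  ring

/-- inertia at a prime `q ≠ r` is unipotent -/
theorem charpoly_inertia (hΔ : W.Δ ≠ 0) {r : ℕ} (hr : r.Prime) (hr2 : r ≠ 2)
    (hrO : (r : O) ∈ maximalIdeal O) {ρ : GaloisRepAdic O} {S : Finset ℕ}
    (hρ : FrobMatches W ρ S) {q : ℕ} (hq : q.Prime) (hss : SemistableAt W q) (hqr : q ≠ r)
    {A : ValuationSubring Ω} (hA : A.LiesOverPrime q) {σ : GalQ}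
    (hσ : σ ∈ A.inertiaSubgroupIn ℚ) : LinearMap.charpoly (ρ.ρ σ) = (X - 1) ^ 2 := by
  have key : ∀ m, LinearMap.trace O ρ.V (ρ.ρ σ) - 2 ∈ maximalIdeal O ^ m ∧
      LinearMap.det (ρ.ρ σ) - 1 ∈ maximalIdeal O ^ m := by
    intro m
    haveI : NeZero (r ^ m) := ⟨pow_ne_zero m hr.ne_zero⟩
    have hqn : ¬ q ∣ r ^ m := fun h =>
      hqr ((Nat.prime_dvd_prime_iff_eq hq hr).1 (hq.dvd_of_dvd_pow h))
    obtain ⟨a, d, hrel, hd, ht, hdet⟩ := exists_relation hΔ hr hrO hρ σ m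
    rw [Attach.cyc_inertia hq hqn hA hσ] at hd
    have hd1 : ((d : ℤ) : ZMod (r ^ m)) = ((1 : ℤ) : ZMod (r ^ m)) := by rw [hd, Int.cast_one]
    have hdvd : ((r ^ m : ℕ) : ℤ) ∣ 2 - a := by
      refine dvd_of_forall_zsmul hΔ (NeZero.ne _) fun P hP => ?_
      obtain ⟨Q, rfl⟩ : ∃ Q, σ • Q = P := ⟨σ⁻¹ • P, smul_inv_smul σ P⟩
      have hQ : r ^ m • Q = 0 := by
        have := smul_torsion (σ := σ⁻¹) hP
        rwa [inv_smul_smul] at this
      have e1 := hrel Q hQ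
      rw [zsmul_eq_of_cast_eq hQ hd1, one_zsmul] at e1
      have e2 := inertia_sq_eq hA hq hss hΔ hr hr2 hqr hσ hQ
      rw [sub_zsmul]
      linear_combination (norm := abel) e1 - e2
    have h1 := sub_mem ht (int_mem_of_dvd (O := O) hrO hdvd)
    have h2 : ((d - 1 : ℤ) : O) ∈ maximalIdeal O ^ m := int_mem_of_dvd hrO
      ((ZMod.intCast_eq_intCast_iff_dvd_sub _ _ _).1 hd1.symm)
    push_cast at h1 h2
    refine ⟨?_, ?_⟩
    · convert h1 using 1; ring
    · convert add_mem hdet h2 using 1; ring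
  rw [SS.charpoly_fin_two' ρ.finrank_eq, Attach.eq_of_forall_sub_mem_pow fun k => (key k).1,
    Attach.eq_of_forall_sub_mem_pow fun k => (key k).2]
  simp only [map_ofNat, map_one]
  ring

end FLTAgent.S58

end
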