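import Fermat.Agent.S58.Bound
import Fermat.Agent.S58.Transfer
import Fermat.Agent.S58.Point
import Fermat.Agent.SS.Newform
import Fermat.Agent.SS.Fibre
import Fermat.Agent.SS2.NotUnipotent
import Fermat.Prelude.Def_WeierstrassCurve_ConductorLevel

/-!
The level of the newform attached to a modular semistable integral model is the conductor level.
-/

set_option autoImplicit false
set_option linter.all false

noncomputable section

namespace FLTAgent.S58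

open IsLocalRing Polynomial ModularFormClass
open FLTAgent.Attach (TFull S2)

local notation "Ω" => AlgebraicClosure ℚ
local notation "GalQ" => AlgebraicClosure ℚ ≃ₐ[ℚ] AlgebraicClosure ℚ

section Agree

variable {W : WeierstrassCurve ℤ} {M : ℕ} [NeZero M] {g : S2 M}
  (χ : TFull M →+* integralClosure ℤ ℂ)

/-- the eigencharacter as a complex character -/
def chiC : TFull M →+* ℂ := (integralClosure ℤ ℂ).val.toRingHom.comp χ

variable (hχ : ∀ (ℓ : ℕ) (hℓ : ℓ.Prime) (hℓM : ¬ ℓ ∣ M),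
    (χ (CuspForm.heckeAlgebra.T hℓ hℓM (Set.notMem_empty _)) : ℂ) = qCoeff g ℓ)
  (S : Finset ℕ) (hS : ∀ ℓ : ℕ, ℓ.Prime → ℓ ∉ S → ¬ (ℓ : ℤ) ∣ W.Δ → ¬ ℓ ∣ M →
    qCoeff g ℓ = ((W.apOfModel ℓ : ℤ) : ℂ))

include hχ hS in
theorem frobMatches {O : Type} [CommRing O] [IsDomain O] [IsLocalRing O]
    [IsAdicComplete (maximalIdeal O) O] {r : ℕ} (f : TFull M →+* O)
    (hf : ∀ u, f u = 0 ↔ chiC χ u = 0) (ρ : GaloisRepAdic O)
    (hρ : ∀ (ℓ : ℕ) (hℓ : ℓ.Prime) (hℓN : ¬ ℓ ∣ M), ℓ ≠ r →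
      ∀ A : ValuationSubring Ω, A.LiesOverPrime ℓ → ∀ σ : GalQ, A.IsFrobeniusAt σ ℓ →
        LinearMap.charpoly (ρ.ρ σ) =
          X ^ 2 - C (f (CuspForm.heckeAlgebra.T hℓ hℓN (Set.notMem_empty _))) * X + C (ℓ : O)) :
    FrobMatches W ρ (S ∪ M.primeFactors ∪ {r}) := by
  intro ℓ hℓ hℓS hgood A hA τ hτ
  simp only [Finset.mem_union, Finset.mem_singleton, Nat.mem_primeFactors, not_or] at hℓS
  obtain ⟨⟨hℓS, hℓM⟩, hℓr⟩ := hℓS
  have hℓM : ¬ ℓ ∣ M := fun hd => hℓM ⟨hℓ, hd, NeZero.ne M⟩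
  rw [hρ ℓ hℓ hℓM hℓr A hA τ hτ]
  have e : f (CuspForm.heckeAlgebra.T hℓ hℓM (Set.notMem_empty _)) =
      ((W.apOfModel ℓ : ℤ) : O) := by
    rw [← sub_eq_zero, ← map_intCast f, ← map_sub, hf, map_sub, map_intCast, sub_eq_zero]
    exact (hχ ℓ hℓ hℓM).trans (hS ℓ hℓ hℓS hgood hℓM)
  rw [e]

end Agree

variable {W : WeierstrassCurve ℤ} {M : ℕ} [NeZero M] {g : S2 M} (hg : g.IsNewform) (hΔ : W.Δ ≠ 0)
  (hss : W.IsSemistableModel) (S : Finset ℕ)
  (hS : ∀ ℓ : ℕ, ℓ.Prime → ℓ ∉ S → ¬ (ℓ : ℤ) ∣ W.Δ → ¬ ℓ ∣ M →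
    qCoeff g ℓ = ((W.apOfModel ℓ : ℤ) : ℂ))

include hg hΔ hS in
/-- agreement at every good prime not dividing the level -/
theorem qCoeff_eq {q : ℕ} (hq : q.Prime) (hgood : ¬ (q : ℤ) ∣ W.Δ) (hqM : ¬ q ∣ M) :
    qCoeff g q = ((W.apOfModel q : ℤ) : ℂ) := by
  obtain ⟨χ, hχ⟩ := Attach.exists_eigenCharacter hg.1
  obtain ⟨D⟩ := Attach.exists_heckeLattice M
  obtain ⟨A, σ, hA, hσ⟩ := Alg.exists_place_frobenius q hq
  have h0 : chiC χ (CuspForm.heckeAlgebra.T hq hqM (Set.notMem_empty _) -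
      ((W.apOfModel q : ℤ) : TFull M)) = 0 := by
    refine eq_zero_of_congr (chiC χ) q fun r hr hqr O _ _ _ _ _ _ hrO f hf => ?_
    obtain ⟨ρ, hρ, -⟩ := Attach.exists_galoisRepAdic hr hrO D (Attach.galoisInputs M) f
    have h := trace_sub_mem_good hΔ hr hrO (frobMatches χ hχ S hS f hf ρ hρ) hq hgood hqr.ne hA hσ
    rw [SS.trace_of_charpoly ρ.finrank_eq (hρ q hq hqM hqr.ne A hA σ hσ)] at h
    rwa [map_sub, map_intCast]
  rw [map_sub, map_intCast, sub_eq_zero] at h0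
  exact (hχ q hq hqM).symm.trans h0

include hg hΔ hS hss in
/-- bad primes of the model divide the level -/
theorem dvd_level {q : ℕ} (hq : q.Prime) (hd : (q : ℤ) ∣ W.Δ) : q ∣ M := by
  by_contra hqM
  obtain ⟨χ, hχ⟩ := Attach.exists_eigenCharacter hg.1
  obtain ⟨D⟩ := Attach.exists_heckeLattice M
  obtain ⟨A, σ, hA, hσ⟩ := Alg.exists_place_frobenius q hq
  set T : TFull M := CuspForm.heckeAlgebra.T hq hqM (Set.notMem_empty _) with hT
  have h0 : chiC χ ((T - ((q + 1 : ℕ) : TFull M)) * (T + ((q + 1 : ℕ) : TFull M))) = 0 := by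
    refine eq_zero_of_congr (chiC χ) (max q 2) fun r hr hB O _ _ _ _ _ _ hrO f hf => ?_
    have hqr : q ≠ r := by omega
    obtain ⟨ρ, hρ, -⟩ := Attach.exists_galoisRepAdic hr hrO D (Attach.galoisInputs M) f
    have h := trace_prod_mem_bad hΔ hr (by omega) hrO (frobMatches χ hχ S hS f hf ρ hρ) hq hd
      (hss q hq) hqr hA hσ
    rw [SS.trace_of_charpoly ρ.finrank_eq (hρ q hq hqM hqr A hA σ hσ), ← hT] at h
    rw [map_mul, map_sub, map_add, map_natCast, Nat.cast_succ]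
    exact h
  rw [map_mul, map_sub, map_add, map_natCast, mul_eq_zero] at h0
  have hb := eigenvalue_norm_lt hq hqM hg.ne_zero (Attach.heckeTLin_eigenform hg.1 hq hqM)
  have hc : chiC χ T = qCoeff g q := hχ q hq hqM
  rw [hc] at h0
  rcases h0 with h0 | h0
  · rw [sub_eq_zero] at h0
    rw [h0, Complex.norm_natCast] at hb
    push_cast at hb
    exact lt_irrefl _ hb
  · rw [add_eq_zero_iff_eq_neg] at h0
    rw [h0, norm_neg, Complex.norm_natCast] at hb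
    push_cast at hb
    exact lt_irrefl _ hb

include hg hΔ hS in
/-- a prime exactly dividing the level is bad for the model -/
theorem dvd_disc {q : ℕ} (hq : q.Prime) (hqM : q ∣ M) (hq2 : ¬ q ^ 2 ∣ M) : (q : ℤ) ∣ W.Δ := by
  by_contra hgood
  obtain ⟨χ, hχ⟩ := Attach.exists_eigenCharacter hg.1
  haveI : NeZero q := ⟨hq.ne_zero⟩
  obtain ⟨r, hrB, hr⟩ := Nat.exists_infinite_primes (2 * q + 3)
  obtain ⟨O, iC, iD, iV, iA, iF, iZ, hrO, f, hf⟩ := exists_point (chiC χ) hr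
  have hqr : q ≠ r := by omega
  obtain ⟨M0, rfl⟩ : ∃ M0, M = M0 * q := ⟨M / q, (Nat.div_mul_cancel hqM).symm⟩
  haveI : NeZero M0 := ⟨fun h => NeZero.ne (M0 * q) (by rw [h, zero_mul])⟩
  have hqM0 : ¬ q ∣ M0 := fun h => hq2 (by rw [sq]; exact mul_dvd_mul h dvd_rfl)
  obtain ⟨D⟩ := Attach.exists_heckeLattice (M0 * q)
  obtain ⟨D0⟩ := Attach.exists_heckeLattice M0
  obtain ⟨ρ, hρ, -, hsp⟩ := SS.exists_galoisRepAdic_special hr hrO D (Attach.galoisInputs _) f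
  obtain ⟨A, σ, hA, hσ⟩ := Alg.exists_place_frobenius q hq
  obtain ⟨P, hP0, hPN⟩ := SS.exists_separating hq hg χ hχ r
  have h := trace_sub_mem_good hΔ hr hrO (frobMatches χ hχ S hS f hf ρ hρ) hq hgood hqr hA hσ
  have hne : ∀ ε : ℤ, (ε = 1 ∨ ε = -1) →
      LinearMap.trace O ρ.V (ρ.ρ σ) ≠ ((ε * ((q : ℤ) + 1) : ℤ) : O) := by
    intro ε hε e
    rw [e, ← Int.cast_sub] at h
    have hd := dvd_of_mem hr hrO h
    have hb := sq_apOfModel_le hq hgood
    have h2 : (2 : ℤ) ≤ q := by exact_mod_cast hq.two_le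
    have ha : (W.apOfModel q).natAbs ≤ q + 1 := by
      rw [← Int.ofNat_le, Int.natCast_natAbs, Nat.cast_add, Nat.cast_one]
      rw [abs_le]
      constructor <;> nlinarith [sq_nonneg ((q : ℤ) - 1)]
    have he : (ε * ((q : ℤ) + 1)).natAbs = q + 1 := by
      rcases hε with rfl | rfl
      · rw [one_mul]; rfl
      · rw [neg_one_mul, Int.natAbs_neg]; rfl
    have hz := Int.eq_zero_of_dvd_of_natAbs_lt_natAbs hd (by
      rw [Int.natAbs_natCast]
      exact lt_of_le_of_lt (Int.natAbs_sub_le _ _) (by rw [he]; omega))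
    rw [sub_eq_zero] at hz
    have hsq : (ε * ((q : ℤ) + 1)) ^ 2 = ((q : ℤ) + 1) ^ 2 := by rcases hε with rfl | rfl <;> ring
    rw [hz] at hsq
    nlinarith
  rcases hsp σ q (Attach.cycR_frobenius hr hrO hq hqr hA hσ)
      ⟨SS.evalT M0 q r (M0 * q) dvd_rfl P, fun h0 => hPN (Subtype.ext ((hf _).1 h0)),
        SS.quartic_galMat hq hr hqr hrO hA (SS.fibreInputs ⟨hq, hqM0, hA⟩) D D0
          (Attach.galoisInputs _) (Attach.galoisInputs _) hP0 hσ⟩ with hc | hc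
  · exact hne 1 (Or.inl rfl) (by rw [SS.trace_of_charpoly ρ.finrank_eq hc]; push_cast; ring)
  · refine hne (-1) (Or.inr rfl) ?_
    rw [SS.trace_of_charpoly ρ.finrank_eq (a := -((q : O) + 1)) (c := (q : O))
      (by rw [hc, map_neg]; ring)]
    push_cast
    ring

include hg hΔ hS hss in
/-- the square of no prime exactly divides the level -/
theorem not_sq_dvd_level {q : ℕ} (hq : q.Prime) (hq3 : ¬ q ^ 3 ∣ M) : ¬ q ^ 2 ∣ M := by
  intro hd
  haveI : NeZero q := ⟨hq.ne_zero⟩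
  obtain ⟨M0, hM0⟩ := hd
  have hM : M = M0 * q * q := by rw [hM0]; ring
  subst hM
  haveI : NeZero M0 := ⟨fun h => NeZero.ne (M0 * q * q) (by rw [h, zero_mul, zero_mul])⟩
  have hqM0 : ¬ q ∣ M0 := fun h => hq3 (by
    obtain ⟨c, rfl⟩ := h
    exact ⟨c, by ring⟩)
  obtain ⟨χ, hχ⟩ := Attach.exists_eigenCharacter hg.1
  obtain ⟨r, hrB, hr⟩ := Nat.exists_infinite_primes (q + 3)
  have hqr : q ≠ r := by omega
  obtain ⟨O, iC, iD, iV, iA, iF, iZ, hrO, f, hf⟩ := exists_point (chiC χ) hr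
  obtain ⟨D⟩ := Attach.exists_heckeLattice (M0 * q * q)
  obtain ⟨ρ, hρ, -⟩ := Attach.exists_galoisRepAdic hr hrO D (Attach.galoisInputs _) f
  refine SS2.not_unipotent hq hqM0 hr hqr hrO hg χ hχ f (fun t ht => Subtype.ext ((hf t).1 ht)) ρ {r}
    (fun ℓ hℓ hℓN hℓS => hρ ℓ hℓ hℓN fun h => hℓS (Finset.mem_singleton.2 h)) ?_
  intro A hA σ hσ
  exact charpoly_inertia hΔ hr (by omega) hrO (frobMatches χ hχ S hS f hf ρ hρ) hq (hss q hq) hqr
    hA hσ

include hg hΔ hS hss in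
theorem level_eq_conductorLevel (hM3 : ∀ q : ℕ, q.Prime → ¬ q ^ 3 ∣ M) :
    M = W.conductorLevel := by
  have h2 : ∀ q : ℕ, q.Prime → ¬ q ^ 2 ∣ M := fun q hq =>
    not_sq_dvd_level hg hΔ hss S hS hq (hM3 q hq)
  have hsf : Squarefree M := Nat.squarefree_iff_prime_squarefree.2 fun q hq hd =>
    h2 q hq (by rwa [sq])
  have hpf : M.primeFactors = W.conductorLevel.primeFactors := by
    ext q
    simp only [Nat.mem_primeFactors]
    constructor
    · rintro ⟨hq, hd, -⟩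
      exact ⟨hq, (W.prime_dvd_conductorLevel_iff hΔ hq).2 (dvd_disc hg hΔ S hS hq hd (h2 q hq)),
        W.conductorLevel_pos.ne'⟩
    · rintro ⟨hq, hd, -⟩
      exact ⟨hq, dvd_level hg hΔ hss S hS hq ((W.prime_dvd_conductorLevel_iff hΔ hq).1 hd),
        NeZero.ne M⟩
  rw [← Nat.prod_primeFactors_of_squarefree hsf, hpf,
    Nat.prod_primeFactors_of_squarefree W.squarefree_conductorLevel]

end FLTAgent.S58

end
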