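import Fermat.Prelude.Def_ModularForm_HeckeOperatorForms
import Mathlib

/-!
The elementary strict bound `‖a_q‖ < q + 1` for eigenvalues on weight two cusp forms, from a maximum
of `im τ * ‖f τ‖`.
-/

set_option autoImplicit false
set_option linter.all false

noncomputable section

open UpperHalfPlane Filter Topology ModularGroup
open scoped MatrixGroups Modular ModularForm Pointwise

namespace FLTAgent.S58

/-- a continuous invariant function vanishing at the cusps attains its supremum -/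
theorem exists_max (h : ℍ → ℝ) (hc : Continuous h) (Γ : Subgroup SL(2, ℤ)) [Γ.FiniteIndex]
    (hinv : ∀ γ ∈ Γ, ∀ τ, h (γ • τ) = h τ)
    (h0 : ∀ g : SL(2, ℤ), Tendsto (fun τ => h (g • τ)) atImInfty (𝓝 0)) (τ₁ : ℍ) (hτ₁ : 0 < h τ₁) :
    ∃ τ₀, ∀ τ, h τ ≤ h τ₀ := by
  classical
  haveI : Fintype (SL(2, ℤ) ⧸ Γ) := Subgroup.fintypeQuotientOfFiniteIndex
  let rep : SL(2, ℤ) ⧸ Γ → SL(2, ℤ) := fun c => (Quotient.out c)⁻¹
  have hev : ∀ c, ∀ᶠ τ in atImInfty, h (rep c • τ) < h τ₁ := fun c =>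
    (h0 (rep c)).eventually (eventually_lt_nhds hτ₁)
  obtain ⟨y, hy⟩ := (atImInfty_mem _).1 (eventually_all.2 hev)
  let K : Set ℍ := insert τ₁ (⋃ c, (fun τ => rep c • τ) '' truncatedFundamentalDomain y)
  have hK : IsCompact K := (isCompact_iUnion fun c =>
    (isCompact_truncatedFundamentalDomain y).image (by simp only [sl_moeb]; fun_prop)).insert τ₁
  obtain ⟨τ₀, hτ₀, hmax⟩ := hK.exists_isMaxOn ⟨τ₁, Set.mem_insert _ _⟩ hc.continuousOn
  refine ⟨τ₀, fun τ => ?_⟩
  obtain ⟨g, hg⟩ := exists_smul_mem_fd τ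
  set c : SL(2, ℤ) ⧸ Γ := QuotientGroup.mk g
  have hmem : (Quotient.out c)⁻¹ * g ∈ Γ :=
    QuotientGroup.eq.1 (QuotientGroup.out_eq' c)
  have e : h τ = h (rep c • (g • τ)) := by
    rw [← mul_smul]
    exact (hinv _ hmem τ).symm
  rw [e]
  rcases le_or_gt (g • τ).im y with hle | hlt
  · exact hmax (Set.mem_insert_of_mem _ (Set.mem_iUnion.2 ⟨c, g • τ, ⟨hg, hle⟩, rfl⟩))
  · exact ((hy _ hlt.le c).le).trans (hmax (Set.mem_insert _ _))

variable {M : ℕ} [NeZero M]

/-- `im τ * ‖v τ‖` -/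
def mass (v : CuspForm (CongruenceSubgroup.Gamma0 M) 2) (τ : ℍ) : ℝ := τ.im * ‖v τ‖

theorem mass_sq (v : CuspForm (CongruenceSubgroup.Gamma0 M) 2) (τ : ℍ) :
    ‖petersson 2 v v τ‖ = mass v τ ^ 2 := by
  rw [petersson, mass, norm_mul, norm_mul, Complex.norm_conj, norm_zpow, Complex.norm_real,
    Real.norm_of_nonneg τ.im_pos.le, zpow_ofNat]
  ring

theorem im_heckeMatrix_smul {q : ℕ} (hq : q ≠ 0) (j : ℕ) (τ : ℍ) :
    (ModularForm.heckeMatrix q j • τ).im = τ.im / q := by
  rw [← UpperHalfPlane.coe_im, ModularForm.coe_heckeMatrix_smul hq]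
  simp

theorem im_heckeDiagMatrix_smul {q : ℕ} (hq : q ≠ 0) (τ : ℍ) :
    (ModularForm.heckeDiagMatrix q • τ).im = q * τ.im := by
  rw [← UpperHalfPlane.coe_im, ModularForm.coe_heckeDiagMatrix_smul hq]
  simp

theorem eigenvalue_norm_lt {q : ℕ} (hq : q.Prime) (hqM : ¬ q ∣ M)
    {v : CuspForm (CongruenceSubgroup.Gamma0 M) 2} (hv : v ≠ 0) {c : ℂ}
    (hT : CuspForm.heckeTLin 2 hq hqM v = c • v) : ‖c‖ < (q : ℝ) + 1 := by
  classical
  have hq0 : q ≠ 0 := hq.ne_zero
  obtain ⟨τ₁, hτ₁⟩ : ∃ τ, v τ ≠ 0 := by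
    by_contra hcon
    push Not at hcon
    exact hv (DFunLike.ext _ _ fun τ => by simpa using hcon τ)
  have h0 : ∀ g : SL(2, ℤ), Tendsto (fun τ => ‖petersson 2 v v (g • τ)‖) atImInfty (𝓝 0) := by
    intro g
    rw [← tendsto_zero_iff_norm_tendsto_zero]
    simp_rw [← UpperHalfPlane.petersson_slash_SL]
    have : ((ConjAct.toConjAct (g : GL (Fin 2) ℝ)⁻¹) •
        ((CongruenceSubgroup.Gamma0 M : Subgroup SL(2, ℤ)) : Subgroup (GL (Fin 2) ℝ))).IsArithmetic := by
      simpa [(show Rat.castHom ℝ = algebraMap ℚ ℝ by rfl), map_inv, Matrix.SpecialLinearGroup.map_mapGL]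
        using! Subgroup.IsArithmetic.conj _ (Matrix.SpecialLinearGroup.mapGL ℚ g)⁻¹
    exact (CuspFormClass.zero_at_infty <| CuspForm.translate v g).petersson_isZeroAtImInfty_left 2 _
      (ModularForm.translate v g)
  obtain ⟨τ₀, hmax'⟩ := exists_max (fun τ => ‖petersson 2 v v τ‖) (by fun_prop)
    (CongruenceSubgroup.Gamma0 M)
    (fun γ hγ τ => SlashInvariantFormClass.norm_petersson_smul (Subgroup.mem_map_of_mem _ hγ)) h0 τ₁
    (by rw [mass_sq]; exact pow_pos (mul_pos τ₁.im_pos (norm_pos_iff.2 hτ₁)) 2)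
  have hnn : ∀ τ, 0 ≤ mass v τ := fun τ => mul_nonneg τ.im_pos.le (norm_nonneg _)
  have hmax : ∀ τ, mass v τ ≤ mass v τ₀ := fun τ =>
    (pow_le_pow_iff_left₀ (hnn τ) (hnn τ₀) two_ne_zero).1 (by rw [← mass_sq, ← mass_sq]; exact hmax' τ)
  have hpos : 0 < mass v τ₀ :=
    lt_of_lt_of_le (mul_pos τ₁.im_pos (norm_pos_iff.2 hτ₁)) (hmax τ₁)
  have hstep : ∀ τ, ‖c‖ * mass v τ ≤ q * mass v τ₀ + mass v (ModularForm.heckeDiagMatrix q • τ) := by
    intro τ
    have e : c * v τ = (q : ℂ)⁻¹ * (∑ j ∈ Finset.range q, v (ModularForm.heckeMatrix q j • τ))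
        + (q : ℂ) * v (ModularForm.heckeDiagMatrix q • τ) := by
      have h := DFunLike.congr_fun hT τ
      rw [CuspForm.heckeTLin_apply_apply, ModularForm.heckeT_apply 2 hq0] at h
      simp only [show ((2 : ℤ) - 1) = 1 by norm_num, zpow_one] at h
      rw [h]
      rfl
    calc ‖c‖ * mass v τ = τ.im * ‖c * v τ‖ := by rw [mass, norm_mul]; ring
      _ ≤ τ.im * ((q : ℝ)⁻¹ * ∑ j ∈ Finset.range q, ‖v (ModularForm.heckeMatrix q j • τ)‖
            + q * ‖v (ModularForm.heckeDiagMatrix q • τ)‖) := by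
          refine mul_le_mul_of_nonneg_left ?_ τ.im_pos.le
          rw [e]
          refine (norm_add_le _ _).trans (add_le_add ?_ (by rw [norm_mul, Complex.norm_natCast]))
          rw [norm_mul, norm_inv, Complex.norm_natCast]
          exact mul_le_mul_of_nonneg_left (norm_sum_le _ _) (by positivity)
      _ = (∑ j ∈ Finset.range q, mass v (ModularForm.heckeMatrix q j • τ))
            + mass v (ModularForm.heckeDiagMatrix q • τ) := by
          simp only [mass, im_heckeMatrix_smul hq0, im_heckeDiagMatrix_smul hq0, ← Finset.mul_sum]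
          ring
      _ ≤ q * mass v τ₀ + mass v (ModularForm.heckeDiagMatrix q • τ) := by
          gcongr
          refine (Finset.sum_le_sum fun j _ => hmax _).trans (le_of_eq ?_)
          simp
  by_contra hcon
  push Not at hcon
  let s : ℕ → ℍ := fun n => (fun τ => ModularForm.heckeDiagMatrix q • τ)^[n] τ₀
  have hs : ∀ n, mass v (s n) = mass v τ₀ := by
    intro n
    induction n with
    | zero => rfl
    | succ n ih =>
      refine le_antisymm (hmax _) ?_
      have h := hstep (s n)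
      rw [ih] at h
      simp only [s, Function.iterate_succ_apply'] at h ⊢
      nlinarith [mul_le_mul_of_nonneg_right hcon hpos.le]
  have him : ∀ n, (s n).im = (q : ℝ) ^ n * τ₀.im := by
    intro n
    induction n with
    | zero => simp [s]
    | succ n ih =>
      simp only [s, Function.iterate_succ_apply'] at ih ⊢
      rw [im_heckeDiagMatrix_smul hq0, ih, pow_succ]
      ring
  have hlim : Tendsto s atTop atImInfty := by
    rw [atImInfty, tendsto_comap_iff]
    have h1 : Tendsto (fun n => (q : ℝ) ^ n * τ₀.im) atTop atTop :=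
      (tendsto_pow_atTop_atTop_of_one_lt (by exact_mod_cast hq.one_lt)).atTop_mul_const τ₀.im_pos
    exact h1.congr fun n => (him n).symm
  have h1 := (h0 1).comp hlim
  simp only [Function.comp_def, one_smul, mass_sq, hs] at h1
  exact (pow_pos hpos 2).ne' (tendsto_nhds_unique tendsto_const_nhds h1)

/-- `q + 1` is not an eigenvalue of `T_q` on weight two cusp forms -/
theorem eq_zero_of_heckeT_eq {q : ℕ} (hq : q.Prime) (hqM : ¬ q ∣ M)
    {v : CuspForm (CongruenceSubgroup.Gamma0 M) 2}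
    (hT : CuspForm.heckeTLin 2 hq hqM v = ((q : ℂ) + 1) • v) : v = 0 := by
  by_contra hv
  have h := eigenvalue_norm_lt hq hqM hv hT
  rw [show (q : ℂ) + 1 = ((q + 1 : ℕ) : ℂ) by push_cast; ring, Complex.norm_natCast] at h
  push_cast at h
  exact lt_irrefl _ h

/-- `T_q - (q + 1)` is injective -/
theorem heckeT_sub_injective {q : ℕ} (hq : q.Prime) (hqM : ¬ q ∣ M) :
    Function.Injective ((CuspForm.heckeTLin 2 hq hqM : Module.End ℂ
      (CuspForm (CongruenceSubgroup.Gamma0 M) 2)) -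
        ((q : ℂ) + 1) • (1 : Module.End ℂ (CuspForm (CongruenceSubgroup.Gamma0 M) 2))) := by
  rw [injective_iff_map_eq_zero]
  intro v hv
  rw [LinearMap.sub_apply, LinearMap.smul_apply, Module.End.one_apply, sub_eq_zero] at hv
  exact eq_zero_of_heckeT_eq hq hqM hv

end FLTAgent.S58

end
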