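import Fermat.Agent.S58.Nodal
import Fermat.Agent.Local.API
import Fermat.Agent.EllFrob.Trace

/-!
Torsion of a semistable integral model at a prime of bad reduction, as needed for level matching.
-/

set_option autoImplicit false
set_option linter.all false

noncomputable section

namespace FLTAgent.S58

open WeierstrassCurve IsLocalRing FLTAgent.Local
open scoped WeierstrassCurve.Affine

local notation "Ω" => AlgebraicClosure ℚ

attribute [local instance] Classical.propDecidable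

local instance decEqResidueS58 (A : ValuationSubring (AlgebraicClosure ℚ)) :
    DecidableEq (ResidueField A) := Classical.decEq _

theorem galois_add {W : WeierstrassCurve ℤ} (σ : Ω ≃ₐ[ℚ] Ω) (P Q : QPoint W) :
    σ • (P + Q) = σ • P + σ • Q := map_add (Affine.Point.map σ.toAlgHom) P Q

theorem galois_sub {W : WeierstrassCurve ℤ} (σ : Ω ≃ₐ[ℚ] Ω) (P Q : QPoint W) :
    σ • (P - Q) = σ • P - σ • Q := map_sub (Affine.Point.map σ.toAlgHom) P Q

theorem galois_zero {W : WeierstrassCurve ℤ} (σ : Ω ≃ₐ[ℚ] Ω) : σ • (0 : QPoint W) = 0 :=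
  map_zero (Affine.Point.map σ.toAlgHom)

variable {W : WeierstrassCurve ℤ} {A : ValuationSubring (AlgebraicClosure ℚ)} {q : ℕ}

theorem exists_torsion_not_mem_zeroComp (hA : A.LiesOverPrime q) (hq : q.Prime)
    (hd : (q : ℤ) ∣ W.Δ) (hss : SemistableAt W q) (hΔ : W.Δ ≠ 0) {r : ℕ} (hr : Odd r) (hr3 : 3 ≤ r)
    (hqr : ¬ q ∣ r) : ∃ P : QPoint W, r • P = 0 ∧ P ∉ zeroComp W A := by
  obtain ⟨W1, φ, hN, hδ, hinj, h0, -, -⟩ := exists_nodal_model hA hq hd hss
  have hδ0 : A.valuation (W1.a₆ : Ω) ≠ 0 := by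
    rw [hδ, Ne, map_eq_zero, Int.cast_eq_zero]; exact hΔ
  obtain ⟨Q, hQ, hQ0⟩ := exists_torsion_not_inE0 hN hδ0 hr hr3
    (valuation_natCast_of_not_dvd hA hq hqr)
  haveI : (genFib W1).IsElliptic :=
    ⟨isUnit_iff_ne_zero.2 fun e => hδ0 (by rw [← val_Δ hN, e, map_zero])⟩
  let f : {P : QPoint W // r • P = 0} → {P : (genFib W1).toAffine.Point // r • P = 0} :=
    fun P => ⟨φ P.1, by rw [← map_nsmul, P.2, map_zero]⟩
  have hr0 : r ≠ 0 := by omega
  have hc1 := EllFrob.natCard_torsion (W := W) hΔ r hr0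
  have hc2 := Torsion.card_nsmul_kernel (genFib W1) r hr0
  haveI hfin : Finite {P : QPoint W // r • P = 0} :=
    Nat.finite_of_card_ne_zero (by rw [hc1]; exact pow_ne_zero 2 hr0)
  haveI : Finite {P : (genFib W1).toAffine.Point // r • P = 0} :=
    Nat.finite_of_card_ne_zero (by rw [hc2]; exact pow_ne_zero 2 hr0)
  obtain ⟨P, hP⟩ := ((Nat.bijective_iff_injective_and_card f).2
    ⟨fun a b h => Subtype.ext (hinj (congrArg Subtype.val h)), by rw [hc1, hc2]⟩).2 ⟨Q, hQ⟩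
  refine ⟨P.1, P.2, fun h => hQ0 ?_⟩
  have e : φ P.1 = Q := congrArg Subtype.val hP
  rw [← e]
  exact (h0 _).2 h

theorem smul_mem_zeroComp (hA : A.LiesOverPrime q) (hq : q.Prime) (hd : (q : ℤ) ∣ W.Δ)
    (hss : SemistableAt W q) {σ : Ω ≃ₐ[ℚ] Ω} (hσ : σ ∈ A.decompositionSubgroup ℚ) {P : QPoint W}
    (hP : P ∈ zeroComp W A) : σ • P ∈ zeroComp W A := by
  obtain ⟨W1, φ, hN, -, -, h0, -, hI⟩ := exists_nodal_model hA hq hd hss
  rw [← h0, hN.inE0_iff] at hP ⊢
  rwa [dist1_image (σ := (σ : Ω →+* Ω)) (fun z => val_aut hσ z) ((hI σ hσ).2 P)]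

theorem image_add_or_sub (hA : A.LiesOverPrime q) (hq : q.Prime) (hd : (q : ℤ) ∣ W.Δ)
    (hss : SemistableAt W q) {σ : Ω ≃ₐ[ℚ] Ω} (hσ : σ ∈ A.decompositionSubgroup ℚ) {n : ℕ}
    (hn : Odd n) {P : QPoint W} (hP : n • P = 0) :
    σ • P + P ∈ zeroComp W A ∨ σ • P - P ∈ zeroComp W A := by
  obtain ⟨W1, φ, hN, -, -, h0, -, hI⟩ := exists_nodal_model hA hq hd hss
  rw [← h0, ← h0, map_add, map_sub]
  exact inE0_add_or_sub_odd hN hn (by rw [← map_nsmul, smul_torsion hP, map_zero])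
    (by rw [← map_nsmul, hP, map_zero])
    (dist1_image (σ := (σ : Ω →+* Ω)) (fun z => val_aut hσ z) ((hI σ hσ).2 P))

theorem mem_zeroComp_of_two {n : ℕ} (hn : Odd n) {P : QPoint W} (hP : n • P = 0)
    (h2 : P + P ∈ zeroComp W A) : P ∈ zeroComp W A := by
  obtain ⟨j, rfl⟩ := hn
  have e : P = -(j • (P + P)) := by
    rw [eq_neg_iff_add_eq_zero, ← two_nsmul, ← mul_nsmul', mul_comm, ← succ_nsmul', hP]
  rw [e]
  exact neg_mem (nsmul_mem h2 j)

/-- inertia is unipotent of level two on torsion of odd prime-power order prime to `q` -/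
theorem inertia_sq_eq (hA : A.LiesOverPrime q) (hq : q.Prime) (hss : SemistableAt W q)
    (hΔ : W.Δ ≠ 0) {r : ℕ} (hr : r.Prime) (hr2 : r ≠ 2) (hqr : q ≠ r) {σ : Ω ≃ₐ[ℚ] Ω}
    (hσ : σ ∈ A.inertiaSubgroupIn ℚ) {m : ℕ} {P : QPoint W} (hP : r ^ m • P = 0) :
    σ • (σ • P) - (2 : ℤ) • (σ • P) + P = 0 := by
  have hqn : ¬ q ∣ r ^ m := fun h => hqr ((Nat.prime_dvd_prime_iff_eq hq hr).1 (hq.dvd_of_dvd_pow h))
  have hodd : Odd r := hr.odd_of_ne_two hr2
  have hQ : r ^ m • (σ • P - P) = 0 := by rw [nsmul_sub, smul_torsion hP, hP, sub_zero]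
  suffices hE : σ • P - P ∈ zeroComp W A by
    have hfix : σ • (σ • P - P) = σ • P - P := by
      rw [← sub_eq_zero]
      exact redKernel_torsion_eq_zero hA hq hqn (inertia_sub_mem_redKernel hσ hE)
        (by rw [nsmul_sub, smul_torsion hQ, hQ, sub_zero])
    rw [galois_sub, ← sub_eq_zero] at hfix
    rw [two_zsmul, ← hfix]
    abel
  by_cases hd : (q : ℤ) ∣ W.Δ
  swap
  · exact mem_zeroComp_of_good hA hq hd _
  rcases eq_or_ne m 0 with rfl | hm
  · rw [pow_zero, one_nsmul] at hP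
    rw [hP, galois_zero, sub_zero]
    exact zero_mem _
  have hdec := inertia_mem_decomposition hσ
  rcases image_add_or_sub hA hq hd hss hdec (hodd.pow) hP with hplus | h
  swap
  · exact h
  obtain ⟨P₀, hP₀, hP₀E⟩ := exists_torsion_not_mem_zeroComp hA hq hd hss hΔ hodd
    (by have := hr.two_le; omega) (fun h => hqr ((Nat.prime_dvd_prime_iff_eq hq hr).1 h))
  have hminus := inertia_sub_mem_zeroComp hA hq hss hr hr2 hσ hP₀
  have hP₀' : r ^ m • P₀ = 0 := by
    obtain ⟨c, hc⟩ := dvd_pow_self r hm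
    rw [hc, mul_nsmul, hP₀, nsmul_zero]
  rcases image_add_or_sub hA hq hd hss hdec (hodd.pow (n := m)) (P := P₀ + P)
      (by rw [nsmul_add, hP₀', hP, add_zero]) with h | h
  · exfalso
    apply hP₀E
    refine mem_zeroComp_of_two hodd hP₀ ?_
    have := sub_mem (sub_mem h hplus) hminus
    convert this using 1
    rw [galois_add]; abel
  · have := sub_mem h hminus
    convert this using 1
    rw [galois_add]; abel

end FLTAgent.S58

end
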