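import Fermat.Agent.Local.Component2
import Fermat.Agent.Torsion.Count

/-!
Odd torsion on a nodal model: it meets a component other than the identity one, and images keeping
the distance agree with the point up to sign modulo the zero component.
-/

set_option autoImplicit false
set_option linter.all false

noncomputable section

namespace FLTAgent.S58

open WeierstrassCurve IsLocalRing FLTAgent.Local Polynomial

/-- division polynomials vanish at the singular point of a nodal cubic -/
theorem eval_preΨ'_zero {k : Type*} [Field k] (W : WeierstrassCurve k) (h3 : W.a₃ = 0)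
    (h4 : W.a₄ = 0) (h6 : W.a₆ = 0) : ∀ n, 3 ≤ n → (W.preΨ' n).eval 0 = 0 := by
  intro n
  induction n using Nat.strong_induction_on with
  | _ n ih =>
    intro hn
    rcases Nat.lt_or_ge n 5 with h5 | h5
    · interval_cases n
      · rw [preΨ'_three, WeierstrassCurve.Ψ₃]
        simp [WeierstrassCurve.b₈, h3, h4, h6]
      · rw [preΨ'_four, WeierstrassCurve.preΨ₄]
        simp [WeierstrassCurve.b₄, WeierstrassCurve.b₆, WeierstrassCurve.b₈, h3, h4, h6]
    · rcases Nat.even_or_odd' n with ⟨m, rfl | rfl⟩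
      · obtain ⟨j, rfl⟩ : ∃ j, m = j + 3 := ⟨m - 3, by omega⟩
        rw [preΨ'_even]
        simp [ih (j + 3) (by omega) (by omega)]
      · obtain ⟨j, rfl⟩ : ∃ j, m = j + 2 := ⟨m - 2, by omega⟩
        rw [preΨ'_odd]
        split_ifs <;> simp [ih (j + 4) (by omega) (by omega), ih (j + 3) (by omega) (by omega)]

variable {K : Type*} [Field K] {A : ValuationSubring K} [DecidableEq K] [CharZero K]
  [IsAlgClosed K] [DecidableEq (ResidueField A)] {W0 : WeierstrassCurve A}

/-- the discriminant of a nodal model -/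
theorem val_Δ (hW : Nodal W0) : A.valuation ((genFib W0).Δ) = A.valuation (W0.a₆ : K) := by
  have e : (genFib W0).Δ = -((W0.a₆ : K)) * ((W0.b₂ : K) ^ 3 + 432 * (W0.a₆ : K)) := by
    rw [Nodal.coe_b₂]
    simp [genFib, WeierstrassCurve.Δ, WeierstrassCurve.b₂, WeierstrassCurve.b₄,
      WeierstrassCurve.b₆, WeierstrassCurve.b₈, hW.a₃, hW.a₄]
    ring
  rw [e, map_mul, Valuation.map_neg, Valuation.map_add_eq_of_lt_left _ ?_, map_pow, hW.b₂,
    one_pow, mul_one]
  rw [map_pow, hW.b₂, one_pow, map_mul]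
  exact lt_of_le_of_lt (mul_le_of_le_one_left' (by simpa using A.valuation_le_one (432 : A))) hW.a₆

/-- some torsion point of given odd order is off the zero component -/
theorem exists_torsion_not_inE0 (hW : Nodal W0) (hδ : A.valuation (W0.a₆ : K) ≠ 0) {r : ℕ}
    (hr : Odd r) (hr3 : 3 ≤ r) (hru : A.valuation (r : K) = 1) :
    ∃ P : (genFib W0).toAffine.Point, r • P = 0 ∧ ¬ InE0 P := by
  haveI : (genFib W0).IsElliptic := ⟨isUnit_iff_ne_zero.2 fun e => hδ (by rw [← val_Δ hW, e, map_zero])⟩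
  set pA : A[X] := W0.preΨ' r with hpA
  set pK : K[X] := (genFib W0).preΨ' r with hpK
  have hmap : pK = pA.map A.subtype := by rw [hpK, hpA, ← map_preΨ']
  have hr0 : (r : K) ≠ 0 := Nat.cast_ne_zero.2 (by omega)
  have hlead : pK.leadingCoeff = (r : K) := by
    rw [hpK, leadingCoeff_preΨ' _ hr0, if_neg (Nat.not_even_iff_odd.2 hr)]
  have h0 : A.valuation (pK.coeff 0) < 1 := by
    rw [hmap, coeff_map]
    refine (res_eq_zero (z := pA.coeff 0)).1 ?_
    have := eval_preΨ'_zero (specFib W0) (by simp [specFib, hW.a₃]) (by simp [specFib, hW.a₄])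
      (by simp [specFib, res_eq_zero.2 hW.a₆]) r hr3
    rw [map_preΨ', ← coeff_zero_eq_eval_zero, coeff_map] at this
    exact this
  obtain ⟨x, hx, hxv⟩ : ∃ x ∈ pK.roots, A.valuation x < 1 := by
    by_contra hcon
    push Not at hcon
    have e := (IsAlgClosed.splits pK).coeff_zero_eq_leadingCoeff_mul_prod_roots
    rw [e, map_mul, map_mul, map_pow, Valuation.map_neg, map_one, one_pow, one_mul, hlead, hru,
      one_mul, map_multiset_prod] at h0
    refine absurd h0 (not_lt.2 (Multiset.one_le_prod fun v hv => ?_))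
    obtain ⟨z, hz, rfl⟩ := Multiset.mem_map.1 hv
    exact hcon z hz
  obtain ⟨y, hy⟩ := Torsion.exists_nonsingular (genFib W0) x
  refine ⟨.some x y hy, (Torsion.nsmul_eq_zero_iff hy r).2 ?_, fun hE => ?_⟩
  · rw [WeierstrassCurve.ΨSq_ofNat, if_neg (Nat.not_even_iff_odd.2 hr), mul_one, eval_pow,
      (isRoot_of_mem_roots hx : pK.eval x = 0), zero_pow two_ne_zero]
  · apply hW.inE0_iff.1 hE
    simp [dist1, hxv]

theorem inE0_of_two {n : ℕ} (hn : Odd n) {P : (genFib W0).toAffine.Point} (hP : n • P = 0)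
    (h2 : InE0 (P + P)) : InE0 P := by
  obtain ⟨j, rfl⟩ := hn
  have e : P = -(j • (P + P)) := by
    rw [eq_neg_iff_add_eq_zero, ← two_nsmul, ← mul_nsmul', mul_comm, ← succ_nsmul', hP]
  rw [e]
  exact inE0_neg ((compZero W0).nsmul_mem h2 j)

theorem nonMid_odd (hW : Nodal W0) {n : ℕ} (hn : Odd n) {P : (genFib W0).toAffine.Point}
    (hP : n • P = 0) : NonMid P := by
  intro h1
  by_contra h2
  push Not at h2
  exact hW.inE0_iff.1 (inE0_of_two hn hP (hW.double_middle h1 h2)) h1

theorem inE0_add_or_sub_odd (hW : Nodal W0) {n : ℕ} (hn : Odd n)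
    {P Q : (genFib W0).toAffine.Point} (hP : n • P = 0) (hQ : n • Q = 0)
    (h : dist1 P = dist1 Q) : InE0 (P + Q) ∨ InE0 (P - Q) := by
  by_cases P0 : InE0 P
  · have Q0 : InE0 Q := by rw [hW.inE0_iff, ← h, ← hW.inE0_iff]; exact P0
    exact Or.inl ((compZero W0).add_mem P0 Q0)
  have P1 := hW.dist1_lt P0
  have Q1 : dist1 Q < 1 := h ▸ P1
  have nQ := nonMid_odd hW hn hQ
  have hY0 : dist1 Q ≠ 0 := fun e => by
    have := nQ Q1; rw [e, zero_pow two_ne_zero] at this; exact not_lt_zero' this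
  rcases hW.pair P1 Q1 h.ge nQ
      (nonMid_odd hW hn (by rw [nsmul_add, hP, hQ, add_zero] : n • (P + Q) = 0))
      (nonMid_odd hW hn (by rw [nsmul_sub, hP, hQ, sub_zero] : n • (P - Q) = 0)) with ⟨e, -⟩ | ⟨e, -⟩
  · left
    rw [hW.inE0_iff, e, h, div_self hY0]; exact lt_irrefl 1
  · right
    rw [hW.inE0_iff, e, h, div_self hY0]; exact lt_irrefl 1

theorem dist1_image {σ : K →+* K} (hσ : ∀ z : K, A.valuation (σ z) = A.valuation z)
    {P P' : (genFib W0).toAffine.Point} (hI : IsImage σ P P') : dist1 P' = dist1 P := by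
  rcases P with _ | ⟨x, y, h⟩ <;> rcases P' with _ | ⟨x', y', h'⟩
  · rfl
  · exact hI.elim
  · exact hI.elim
  · obtain ⟨rfl, rfl⟩ := hI; simp only [dist1, hσ]

end FLTAgent.S58

end
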